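import Mathlib

/-!
# S52, piece B1-data: the explicit 5-congruent family (Rubin–Silverberg) in (c₄,c₆)-form and the
torsion sections in Tate normal form.  All statements are polynomial identities (`ring`).
Data computed by helper952 (twisted Klein form `F` with `(F,F)₄ = 0`, `C4 ∝` Hessian, `C6 ∝` Jacobian).
-/

set_option autoImplicit false
set_option linter.unusedVariables false

namespace Fermat.Agent.S52.Fam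

variable {R : Type*} [CommRing R]

/-- `c₄` of the Tate normal form `y² + (1-c)xy - cy = x³ - cx²`. -/
def tc4 (c : R) : R := c^4 - 12*c^3 + 14*c^2 + 12*c + 1

/-- `c₆` of the Tate normal form. -/
def tc6 (c : R) : R := -((c^2 + 1) * (c^4 - 18*c^3 + 74*c^2 + 18*c + 1))

/-- `Δ` of the Tate normal form. -/
def tΔ (c : R) : R := c^5 * (c^2 - 11*c - 1)

/-- homogeneous `c₄`-form: `c₄` of `y² + (Z-X)xy - XZ²y = x³ - XZ x²`. -/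
def C4hom (X Z : R) : R := X^4 - 12*X^3*Z + 14*X^2*Z^2 + 12*X*Z^3 + Z^4

/-- homogeneous `c₆`-form. -/
def C6hom (X Z : R) : R := -((X^2 + Z^2) * (X^4 - 18*X^3*Z + 74*X^2*Z^2 + 18*X*Z^3 + Z^4))

/-- homogeneous `Δ`-form. -/
def Δhom (X Z : R) : R := X^5 * Z^5 * (X^2 - 11*X*Z - Z^2)

/-- coefficient of `τ^0` in `q5`. -/
def q5_0 (c : R) : R := 1

/-- coefficient of `τ^1` in `q5`. -/
def q5_1 (c : R) : R := 7 + 66*c - 5*c^2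

/-- coefficient of `τ^2` in `q5`. -/
def q5_2 (c : R) : R := -38 - 264*c + 1772*c^2 - 264*c^3 + 10*c^4

/-- coefficient of `τ^3` in `q5`. -/
def q5_3 (c : R) : R := 62 + 396*c - 966*c^2 + 24552*c^3 - 5358*c^4 + 396*c^5 - 10*c^6

/-- coefficient of `τ^4` in `q5`. -/
def q5_4 (c : R) : R := -43 - 264*c - 3364*c^2 - 48312*c^3 + 164046*c^4 - 48312*c^5 + 5372*c^6 - 264*c^7 + 5*c^8

/-- coefficient of `τ^5` in `q5`. -/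
def q5_5 (c : R) : R := 11 + 66*c + 2563*c^2 + 24024*c^3 - 80938*c^4 + 475596*c^5 - 163042*c^6 + 24024*c^7 - 1793*c^8 + 66*c^9 - c^10

def q5 (c τ : R) : R :=
  q5_0 c
  + q5_1 c * τ
  + q5_2 c * τ^2
  + q5_3 c * τ^3
  + q5_4 c * τ^4
  + q5_5 c * τ^5

/-- coefficient of `τ^0` in `q5'`. -/
def q5'_0 (c : R) : R := 1

/-- coefficient of `τ^1` in `q5'`. -/
def q5'_1 (c : R) : R := -5 - 66*c + 7*c^2

/-- coefficient of `τ^2` in `q5'`. -/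
def q5'_2 (c : R) : R := 10 + 264*c + 1772*c^2 + 264*c^3 - 38*c^4

/-- coefficient of `τ^3` in `q5'`. -/
def q5'_3 (c : R) : R := -10 - 396*c - 5358*c^2 - 24552*c^3 - 966*c^4 - 396*c^5 + 62*c^6

/-- coefficient of `τ^4` in `q5'`. -/
def q5'_4 (c : R) : R := 5 + 264*c + 5372*c^2 + 48312*c^3 + 164046*c^4 + 48312*c^5 - 3364*c^6 + 264*c^7 - 43*c^8

/-- coefficient of `τ^5` in `q5'`. -/
def q5'_5 (c : R) : R := -1 - 66*c - 1793*c^2 - 24024*c^3 - 163042*c^4 - 475596*c^5 - 80938*c^6 - 24024*c^7 + 2563*c^8 - 66*c^9 + 11*c^10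

def q5' (c τ : R) : R :=
  q5'_0 c
  + q5'_1 c * τ
  + q5'_2 c * τ^2
  + q5'_3 c * τ^3
  + q5'_4 c * τ^4
  + q5'_5 c * τ^5

/-- coefficient of `τ^0` in `Fk`. -/
def Fk_0 (c₄ c₆ : R) : R := 1

/-- coefficient of `τ^2` in `Fk`. -/
def Fk_2 (c₄ c₆ : R) : R := -66*c₄

/-- coefficient of `τ^3` in `Fk`. -/
def Fk_3 (c₄ c₆ : R) : R := -440*c₆

/-- coefficient of `τ^4` in `Fk`. -/
def Fk_4 (c₄ c₆ : R) : R := -1485*c₄^2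

/-- coefficient of `τ^5` in `Fk`. -/
def Fk_5 (c₄ c₆ : R) : R := -3168*c₄*c₆

/-- coefficient of `τ^6` in `Fk`. -/
def Fk_6 (c₄ c₆ : R) : R := 5940*c₄^3 - 10560*c₆^2

/-- coefficient of `τ^7` in `Fk`. -/
def Fk_7 (c₄ c₆ : R) : R := -4752*c₄^2*c₆

/-- coefficient of `τ^8` in `Fk`. -/
def Fk_8 (c₄ c₆ : R) : R := -66825*c₄^4 + 63360*c₄*c₆^2

/-- coefficient of `τ^9` in `Fk`. -/
def Fk_9 (c₄ c₆ : R) : R := -142560*c₄^3*c₆ + 140800*c₆^3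

/-- coefficient of `τ^10` in `Fk`. -/
def Fk_10 (c₄ c₆ : R) : R := -133650*c₄^5 + 133056*c₄^2*c₆^2

/-- coefficient of `τ^11` in `Fk`. -/
def Fk_11 (c₄ c₆ : R) : R := -61560*c₄^4*c₆ + 61440*c₄*c₆^3

/-- coefficient of `τ^12` in `Fk`. -/
def Fk_12 (c₄ c₆ : R) : R := 91125*c₄^6 - 193536*c₄^3*c₆^2 + 102400*c₆^4

def Fk (c₄ c₆ τ : R) : R :=
  Fk_0 c₄ c₆
  + Fk_2 c₄ c₆ * τ^2
  + Fk_3 c₄ c₆ * τ^3
  + Fk_4 c₄ c₆ * τ^4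
  + Fk_5 c₄ c₆ * τ^5
  + Fk_6 c₄ c₆ * τ^6
  + Fk_7 c₄ c₆ * τ^7
  + Fk_8 c₄ c₆ * τ^8
  + Fk_9 c₄ c₆ * τ^9
  + Fk_10 c₄ c₆ * τ^10
  + Fk_11 c₄ c₆ * τ^11
  + Fk_12 c₄ c₆ * τ^12

/-- coefficient of `τ^0` in `C4`. -/
def C4_0 (c₄ c₆ : R) : R := c₄

/-- coefficient of `τ^1` in `C4`. -/
def C4_1 (c₄ c₆ : R) : R := 20*c₆

/-- coefficient of `τ^2` in `C4`. -/
def C4_2 (c₄ c₆ : R) : R := 190*c₄^2

/-- coefficient of `τ^3` in `C4`. -/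
def C4_3 (c₄ c₆ : R) : R := 1140*c₄*c₆

/-- coefficient of `τ^4` in `C4`. -/
def C4_4 (c₄ c₆ : R) : R := -855*c₄^3 + 5700*c₆^2

/-- coefficient of `τ^5` in `C4`. -/
def C4_5 (c₄ c₆ : R) : R := 15504*c₄^2*c₆

/-- coefficient of `τ^6` in `C4`. -/
def C4_6 (c₄ c₆ : R) : R := 102600*c₄^4 - 63840*c₄*c₆^2

/-- coefficient of `τ^7` in `C4`. -/
def C4_7 (c₄ c₆ : R) : R := 259920*c₄^3*c₆ - 182400*c₆^3

/-- coefficient of `τ^8` in `C4`. -/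
def C4_8 (c₄ c₆ : R) : R := -1000350*c₄^5 + 1126320*c₄^2*c₆^2

/-- coefficient of `τ^9` in `C4`. -/
def C4_9 (c₄ c₆ : R) : R := -7736040*c₄^4*c₆ + 7904000*c₄*c₆^3

/-- coefficient of `τ^10` in `C4`. -/
def C4_10 (c₄ c₆ : R) : R := -10003500*c₄^6 - 5619744*c₄^3*c₆^2 + 15808000*c₆^4

/-- coefficient of `τ^11` in `C4`. -/
def C4_11 (c₄ c₆ : R) : R := -54685800*c₄^5*c₆ + 54853760*c₄^2*c₆^3

/-- coefficient of `τ^12` in `C4`. -/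
def C4_12 (c₄ c₆ : R) : R := -45015750*c₄^7 + 7202520*c₄^4*c₆^2 + 37939200*c₄*c₆^4

/-- coefficient of `τ^13` in `C4`. -/
def C4_13 (c₄ c₆ : R) : R := -35089200*c₄^6*c₆ - 23201280*c₄^3*c₆^3 + 58368000*c₆^5

/-- coefficient of `τ^14` in `C4`. -/
def C4_14 (c₄ c₆ : R) : R := 207765000*c₄^8 - 495188640*c₄^5*c₆^2 + 287462400*c₄^2*c₆^4

/-- coefficient of `τ^15` in `C4`. -/
def C4_15 (c₄ c₆ : R) : R := 415530000*c₄^7*c₆ - 882458496*c₄^4*c₆^3 + 466944000*c₄*c₆^5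

/-- coefficient of `τ^16` in `C4`. -/
def C4_16 (c₄ c₆ : R) : R := -77911875*c₄^9 + 714711600*c₄^6*c₆^2 - 1220474880*c₄^3*c₆^4 + 583680000*c₆^6

/-- coefficient of `τ^17` in `C4`. -/
def C4_17 (c₄ c₆ : R) : R := 353200500*c₄^8*c₆ - 715080960*c₄^5*c₆^3 + 361881600*c₄^2*c₆^5

/-- coefficient of `τ^18` in `C4`. -/
def C4_18 (c₄ c₆ : R) : R := 779118750*c₄^10 - 2182917600*c₄^7*c₆^2 + 2026391040*c₄^4*c₆^4 - 622592000*c₄*c₆^6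

/-- coefficient of `τ^19` in `C4`. -/
def C4_19 (c₄ c₆ : R) : R := 694372500*c₄^9*c₆ - 2044414080*c₄^6*c₆^3 + 2005401600*c₄^3*c₆^5 - 655360000*c₆^7

/-- coefficient of `τ^20` in `C4`. -/
def C4_20 (c₄ c₆ : R) : R := 184528125*c₄^11 - 549301500*c₄^8*c₆^2 + 544997376*c₄^5*c₆^4 - 180224000*c₄^2*c₆^6

def C4 (c₄ c₆ τ : R) : R :=
  C4_0 c₄ c₆
  + C4_1 c₄ c₆ * τ
  + C4_2 c₄ c₆ * τ^2
  + C4_3 c₄ c₆ * τ^3
  + C4_4 c₄ c₆ * τ^4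
  + C4_5 c₄ c₆ * τ^5
  + C4_6 c₄ c₆ * τ^6
  + C4_7 c₄ c₆ * τ^7
  + C4_8 c₄ c₆ * τ^8
  + C4_9 c₄ c₆ * τ^9
  + C4_10 c₄ c₆ * τ^10
  + C4_11 c₄ c₆ * τ^11
  + C4_12 c₄ c₆ * τ^12
  + C4_13 c₄ c₆ * τ^13
  + C4_14 c₄ c₆ * τ^14
  + C4_15 c₄ c₆ * τ^15
  + C4_16 c₄ c₆ * τ^16
  + C4_17 c₄ c₆ * τ^17
  + C4_18 c₄ c₆ * τ^18
  + C4_19 c₄ c₆ * τ^19
  + C4_20 c₄ c₆ * τ^20

/-- coefficient of `τ^0` in `C6`. -/
def C6_0 (c₄ c₆ : R) : R := c₆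

/-- coefficient of `τ^1` in `C6`. -/
def C6_1 (c₄ c₆ : R) : R := 30*c₄^2

/-- coefficient of `τ^2` in `C6`. -/
def C6_2 (c₄ c₆ : R) : R := 435*c₄*c₆

/-- coefficient of `τ^3` in `C6`. -/
def C6_3 (c₄ c₆ : R) : R := 1160*c₄^3 + 2900*c₆^2

/-- coefficient of `τ^4` in `C6`. -/
def C6_4 (c₄ c₆ : R) : R := 27405*c₄^2*c₆

/-- coefficient of `τ^5` in `C6`. -/
def C6_5 (c₄ c₆ : R) : R := 95526*c₄^4 + 46980*c₄*c₆^2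

/-- coefficient of `τ^6` in `C6`. -/
def C6_6 (c₄ c₆ : R) : R := 437175*c₄^3*c₆ + 156600*c₆^3

/-- coefficient of `τ^7` in `C6`. -/
def C6_7 (c₄ c₆ : R) : R := -1879200*c₄^5 + 3915000*c₄^2*c₆^2

/-- coefficient of `τ^8` in `C6`. -/
def C6_8 (c₄ c₆ : R) : R := -8554275*c₄^4*c₆ + 14407200*c₄*c₆^3

/-- coefficient of `τ^9` in `C6`. -/
def C6_9 (c₄ c₆ : R) : R := 24312150*c₄^6 - 42021000*c₄^3*c₆^2 + 32016000*c₆^4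

/-- coefficient of `τ^10` in `C6`. -/
def C6_10 (c₄ c₆ : R) : R := 246633255*c₄^5*c₆ - 216588240*c₄^2*c₆^3

/-- coefficient of `τ^11` in `C6`. -/
def C6_11 (c₄ c₆ : R) : R := 162081000*c₄^7 + 1352475900*c₄^4*c₆^2 - 1459929600*c₄*c₆^4

/-- coefficient of `τ^12` in `C6`. -/
def C6_12 (c₄ c₆ : R) : R := 4131714825*c₄^6*c₆ - 1612005600*c₄^3*c₆^3 - 2433216000*c₆^5

/-- coefficient of `τ^13` in `C6`. -/
def C6_13 (c₄ c₆ : R) : R := 6928962750*c₄^8 + 5235216300*c₄^5*c₆^2 - 12044419200*c₄^2*c₆^4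

/-- coefficient of `τ^14` in `C6`. -/
def C6_14 (c₄ c₆ : R) : R := 43190534475*c₄^7*c₆ - 43045111800*c₄^4*c₆^3

/-- coefficient of `τ^15` in `C6`. -/
def C6_15 (c₄ c₆ : R) : R := 79575287760*c₄^6*c₆^2 - 79420170240*c₄^3*c₆^4

/-- coefficient of `τ^16` in `C6`. -/
def C6_16 (c₄ c₆ : R) : R := -176688550125*c₄^8*c₆ + 474659611200*c₄^5*c₆^3 - 297825638400*c₄^2*c₆^5

/-- coefficient of `τ^17` in `C6`. -/
def C6_17 (c₄ c₆ : R) : R := -311803323750*c₄^10 + 77604382800*c₄^7*c₆^2 + 935084908800*c₄^4*c₆^4 - 700766208000*c₄*c₆^6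

/-- coefficient of `τ^18` in `C6`. -/
def C6_18 (c₄ c₆ : R) : R := -1694131392375*c₄^9*c₆ + 2776512362400*c₄^6*c₆^3 - 303665356800*c₄^3*c₆^5 - 778629120000*c₆^7

/-- coefficient of `τ^19` in `C6`. -/
def C6_19 (c₄ c₆ : R) : R := -328214025000*c₄^11 - 3481840250100*c₄^8*c₆^2 + 8100765158400*c₄^5*c₆^4 - 4290656256000*c₄^2*c₆^6

/-- coefficient of `τ^20` in `C6`. -/
def C6_20 (c₄ c₆ : R) : R := -2874607835625*c₄^10*c₆ + 2424887357760*c₄^7*c₆^3 + 3892110842880*c₄^4*c₆^5 - 3442360320000*c₄*c₆^7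

/-- coefficient of `τ^21` in `C6`. -/
def C6_21 (c₄ c₆ : R) : R := -2215444668750*c₄^12 + 3077188825500*c₄^9*c₆^2 - 2709129888000*c₄^6*c₆^4 + 5125838438400*c₄^3*c₆^6 - 3278438400000*c₆^8

/-- coefficient of `τ^22` in `C6`. -/
def C6_22 (c₄ c₆ : R) : R := -1403114956875*c₄^11*c₆ - 1724509423800*c₄^8*c₆^3 + 7701051801600*c₄^5*c₆^5 - 4573421568000*c₄^2*c₆^7

/-- coefficient of `τ^23` in `C6`. -/
def C6_23 (c₄ c₆ : R) : R := 7705894500000*c₄^13 - 33414470973000*c₄^10*c₆^2 + 49888700928000*c₄^7*c₆^4 - 30337884979200*c₄^4*c₆^6 + 6157762560000*c₄*c₆^8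

/-- coefficient of `τ^24` in `C6`. -/
def C6_24 (c₄ c₆ : R) : R := 5089101159375*c₄^12*c₆ - 22687218914400*c₄^9*c₆^3 + 35246094796800*c₄^6*c₆^5 - 22779445248000*c₄^3*c₆^7 + 5131468800000*c₆^9

/-- coefficient of `τ^25` in `C6`. -/
def C6_25 (c₄ c₆ : R) : R := -17627233668750*c₄^14 + 70097953635000*c₄^11*c₆^2 - 105528606261120*c₄^8*c₆^4 + 71274600677376*c₄^5*c₆^6 - 18216714240000*c₄^2*c₆^8

/-- coefficient of `τ^26` in `C6`. -/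
def C6_26 (c₄ c₆ : R) : R := -40985726371875*c₄^13*c₆ + 163672057566000*c₄^10*c₆^3 - 245438120632320*c₄^7*c₆^5 + 163803539865600*c₄^4*c₆^7 - 41051750400000*c₄*c₆^9

/-- coefficient of `τ^27` in `C6`. -/
def C6_27 (c₄ c₆ : R) : R := -9632368125000*c₄^15 + 8104032382500*c₄^12*c₆^2 + 63806176396800*c₄^9*c₆^4 - 143803576074240*c₄^6*c₆^6 + 111934439424000*c₄^3*c₆^8 - 30408704000000*c₆^10

/-- coefficient of `τ^28` in `C6`. -/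
def C6_28 (c₄ c₆ : R) : R := -21432019078125*c₄^14*c₆ + 85719228804000*c₄^11*c₆^3 - 128580522647040*c₄^8*c₆^5 + 85731449241600*c₄^5*c₆^7 - 21438136320000*c₄^2*c₆^9

/-- coefficient of `τ^29` in `C6`. -/
def C6_29 (c₄ c₆ : R) : R := -11210083593750*c₄^16 + 49873523512500*c₄^13*c₆^2 - 87394892457600*c₄^10*c₆^4 + 75042714746880*c₄^7*c₆^6 - 31344427008000*c₄^4*c₆^8 + 5033164800000*c₄*c₆^10

/-- coefficient of `τ^30` in `C6`. -/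
def C6_30 (c₄ c₆ : R) : R := -4110363984375*c₄^15*c₆ + 19796866155000*c₄^12*c₆^3 - 38083944628224*c₄^9*c₆^5 + 36574189977600*c₄^6*c₆^7 - 17532190720000*c₄^3*c₆^9 + 3355443200000*c₆^11

def C6 (c₄ c₆ τ : R) : R :=
  C6_0 c₄ c₆
  + C6_1 c₄ c₆ * τ
  + C6_2 c₄ c₆ * τ^2
  + C6_3 c₄ c₆ * τ^3
  + C6_4 c₄ c₆ * τ^4
  + C6_5 c₄ c₆ * τ^5
  + C6_6 c₄ c₆ * τ^6
  + C6_7 c₄ c₆ * τ^7
  + C6_8 c₄ c₆ * τ^8
  + C6_9 c₄ c₆ * τ^9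
  + C6_10 c₄ c₆ * τ^10
  + C6_11 c₄ c₆ * τ^11
  + C6_12 c₄ c₆ * τ^12
  + C6_13 c₄ c₆ * τ^13
  + C6_14 c₄ c₆ * τ^14
  + C6_15 c₄ c₆ * τ^15
  + C6_16 c₄ c₆ * τ^16
  + C6_17 c₄ c₆ * τ^17
  + C6_18 c₄ c₆ * τ^18
  + C6_19 c₄ c₆ * τ^19
  + C6_20 c₄ c₆ * τ^20
  + C6_21 c₄ c₆ * τ^21
  + C6_22 c₄ c₆ * τ^22
  + C6_23 c₄ c₆ * τ^23
  + C6_24 c₄ c₆ * τ^24
  + C6_25 c₄ c₆ * τ^25
  + C6_26 c₄ c₆ * τ^26
  + C6_27 c₄ c₆ * τ^27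
  + C6_28 c₄ c₆ * τ^28
  + C6_29 c₄ c₆ * τ^29
  + C6_30 c₄ c₆ * τ^30

end Fermat.Agent.S52.Fam
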