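import Fermat.Agent.S52.Fam.Tables

/-!
# S52 / Fam: the key identities of the explicit 5-congruent family, checked by kernel computation.

* `C4_tate_one`, `C6_tate_one`: the curve with invariants `(C4, C6)(tc4 c, tc6 c, τ)` is the Tate normal
  form with homogeneous parameters `(X, Z) = (c * q5 c τ, q5' c τ)`.
-/

set_option autoImplicit false

namespace Fermat.Agent.S52.Fam

open Fermat.Agent.S52.Refl

variable {R : Type*} [CommRing R]

/-- table of `X = c * q5`. -/
def XL : List (List ℤ) := bsmul [0, 1] q5L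

lemma beval_XL (c τ : R) : beval c τ XL = c * q5 c τ := by
  rw [XL, beval_bsmul, ← q5_eq_beval]; simp [ueval]

/-- `C4hom` on tables. -/
def C4homL (X Z : List (List ℤ)) : List (List ℤ) :=
  badd (bpow X 4) (badd (bzsmul (-12) (bmul (bpow X 3) Z))
    (badd (bzsmul 14 (bmul (bpow X 2) (bpow Z 2)))
      (badd (bzsmul 12 (bmul X (bpow Z 3))) (bpow Z 4))))

lemma beval_C4homL (c τ : R) (X Z : List (List ℤ)) :
    beval c τ (C4homL X Z) = C4hom (beval c τ X) (beval c τ Z) := by
  simp only [C4homL, C4hom, beval_badd, beval_bzsmul, beval_bmul, beval_bpow]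
  push_cast; ring

/-- `X⁴ - 18X³Z + 74X²Z² + 18XZ³ + Z⁴` on tables. -/
def G4L (X Z : List (List ℤ)) : List (List ℤ) :=
  badd (bpow X 4) (badd (bzsmul (-18) (bmul (bpow X 3) Z))
    (badd (bzsmul 74 (bmul (bpow X 2) (bpow Z 2)))
      (badd (bzsmul 18 (bmul X (bpow Z 3))) (bpow Z 4))))

/-- `C6hom` on tables. -/
def C6homL (X Z : List (List ℤ)) : List (List ℤ) :=
  bzsmul (-1) (bmul (badd (bpow X 2) (bpow Z 2)) (G4L X Z))

lemma beval_C6homL (c τ : R) (X Z : List (List ℤ)) :
    beval c τ (C6homL X Z) = C6hom (beval c τ X) (beval c τ Z) := by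
  simp only [C6homL, G4L, C6hom, beval_badd, beval_bzsmul, beval_bmul, beval_bpow]
  push_cast; ring

theorem check_I1 : beq (tsubst tc4L tc6L C4T) (C4homL XL q5L') = true := by
  decide +kernel

theorem check_I2 : beq (tsubst tc4L tc6L C6T) (C6homL XL q5L') = true := by
  decide +kernel

/-- **(I1)** -/
theorem C4_tate_one (c τ : R) :
    C4 (tc4 c) (tc6 c) τ = C4hom (c * q5 c τ) (q5' c τ) := by
  rw [C4_eq_teval, tc4_eq_ueval, tc6_eq_ueval, ← beval_tsubst,
    beval_eq_of_beq c τ _ _ check_I1, beval_C4homL, beval_XL, ← q5'_eq_beval]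

/-- **(I2)** -/
theorem C6_tate_one (c τ : R) :
    C6 (tc4 c) (tc6 c) τ = C6hom (c * q5 c τ) (q5' c τ) := by
  rw [C6_eq_teval, tc4_eq_ueval, tc6_eq_ueval, ← beval_tsubst,
    beval_eq_of_beq c τ _ _ check_I2, beval_C6homL, beval_XL, ← q5'_eq_beval]

end Fermat.Agent.S52.Fam
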