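import Fermat.Agent.S52.Fam.Cert

/-!
# S52 / Fam: weights, the syzygy `C4³ - C6² = (c₄³ - c₆²) Fk⁵`, the Hessian identity and the
symmetry `q5' c τ = q5 (-1/c) (c² τ)`.
-/

set_option autoImplicit false
set_option linter.unusedVariables false

namespace Fermat.Agent.S52.Fam

open Fermat.Agent.S52.Refl

variable {R : Type*} [CommRing R]

/-! ### weights -/

theorem C4_weight (c₄ c₆ τ u : R) : C4 (u^4 * c₄) (u^6 * c₆) τ = u^4 * C4 c₄ c₆ (u^2 * τ) := by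
  simp only [C4, C4_0, C4_1, C4_2, C4_3, C4_4, C4_5, C4_6, C4_7, C4_8, C4_9, C4_10, C4_11, C4_12, C4_13, C4_14, C4_15, C4_16, C4_17, C4_18, C4_19, C4_20]; ring

set_option maxHeartbeats 1000000 in
theorem C6_weight (c₄ c₆ τ u : R) : C6 (u^4 * c₄) (u^6 * c₆) τ = u^6 * C6 c₄ c₆ (u^2 * τ) := by
  simp only [C6, C6_0, C6_1, C6_2, C6_3, C6_4, C6_5, C6_6, C6_7, C6_8, C6_9, C6_10, C6_11, C6_12, C6_13, C6_14, C6_15, C6_16, C6_17, C6_18, C6_19, C6_20, C6_21, C6_22, C6_23, C6_24, C6_25, C6_26, C6_27, C6_28, C6_29, C6_30]; ring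

theorem Fk_weight (c₄ c₆ τ u : R) : Fk (u^4 * c₄) (u^6 * c₆) τ = Fk c₄ c₆ (u^2 * τ) := by
  simp only [Fk, Fk_0, Fk_2, Fk_3, Fk_4, Fk_5, Fk_6, Fk_7, Fk_8, Fk_9, Fk_10, Fk_11, Fk_12]; ring

theorem C4_dehom (c₄ c₆ τ : R) : C4 (c₄ * τ^2) (c₆ * τ^3) 1 = τ^2 * C4 c₄ c₆ τ := by
  simp only [C4, C4_0, C4_1, C4_2, C4_3, C4_4, C4_5, C4_6, C4_7, C4_8, C4_9, C4_10, C4_11, C4_12, C4_13, C4_14, C4_15, C4_16, C4_17, C4_18, C4_19, C4_20]; ring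

set_option maxHeartbeats 1000000 in
theorem C6_dehom (c₄ c₆ τ : R) : C6 (c₄ * τ^2) (c₆ * τ^3) 1 = τ^3 * C6 c₄ c₆ τ := by
  simp only [C6, C6_0, C6_1, C6_2, C6_3, C6_4, C6_5, C6_6, C6_7, C6_8, C6_9, C6_10, C6_11, C6_12, C6_13, C6_14, C6_15, C6_16, C6_17, C6_18, C6_19, C6_20, C6_21, C6_22, C6_23, C6_24, C6_25, C6_26, C6_27, C6_28, C6_29, C6_30]; ring

theorem Fk_dehom (c₄ c₆ τ : R) : Fk (c₄ * τ^2) (c₆ * τ^3) 1 = Fk c₄ c₆ τ := by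
  simp only [Fk, Fk_0, Fk_2, Fk_3, Fk_4, Fk_5, Fk_6, Fk_7, Fk_8, Fk_9, Fk_10, Fk_11, Fk_12]; ring

@[simp] theorem C4_zero (c₄ c₆ : R) : C4 c₄ c₆ 0 = c₄ := by
  simp only [C4, C4_0, C4_1, C4_2, C4_3, C4_4, C4_5, C4_6, C4_7, C4_8, C4_9, C4_10, C4_11, C4_12, C4_13, C4_14, C4_15, C4_16, C4_17, C4_18, C4_19, C4_20]; ring

@[simp] theorem C6_zero (c₄ c₆ : R) : C6 c₄ c₆ 0 = c₆ := by
  simp only [C6, C6_0, C6_1, C6_2, C6_3, C6_4, C6_5, C6_6, C6_7, C6_8, C6_9, C6_10, C6_11, C6_12, C6_13, C6_14, C6_15, C6_16, C6_17, C6_18, C6_19, C6_20, C6_21, C6_22, C6_23, C6_24, C6_25, C6_26, C6_27, C6_28, C6_29, C6_30]; ring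

@[simp] theorem Fk_zero (c₄ c₆ : R) : Fk c₄ c₆ 0 = 1 := by
  simp only [Fk, Fk_0, Fk_2, Fk_3, Fk_4, Fk_5, Fk_6, Fk_7, Fk_8, Fk_9, Fk_10, Fk_11, Fk_12]; ring

@[simp] theorem q5_zero (c : R) : q5 c 0 = 1 := by
  simp only [q5, q5_0, q5_1, q5_2, q5_3, q5_4, q5_5]; ring

@[simp] theorem q5'_zero (c : R) : q5' c 0 = 1 := by
  simp only [q5', q5'_0, q5'_1, q5'_2, q5'_3, q5'_4, q5'_5]; ring

@[simp] theorem q2_zero (c : R) : q2 c 0 = 1 := by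
  simp only [q2]; ring

/-! ### the syzygy -/

theorem check_syz :
    beq (badd (bpow (tflat C4T) 3) (bzsmul (-1) (bpow (tflat C6T) 2)))
      (bmul [[0, 0, 0, 1], [], [-1]] (bpow (tflat FkT) 5)) = true := by
  decide +kernel

/-- the syzygy at `τ = 1`. -/
theorem syzygy_one (x y : R) :
    C4 x y 1 ^ 3 - C6 x y 1 ^ 2 = (x ^ 3 - y ^ 2) * Fk x y 1 ^ 5 := by
  have h := beval_eq_of_beq x y _ _ check_syz
  simp only [beval_badd, beval_bzsmul, beval_bmul, beval_bpow, beval_tflat, ← C4_eq_teval,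
    ← C6_eq_teval, ← Fk_eq_teval, beval_cons, beval_nil, ueval] at h
  push_cast at h
  linear_combination h

/-- **The syzygy** `C4³ - C6² = (c₄³ - c₆²) Fk⁵`, i.e. `Δ(E_τ) = Δ(E) Fk(τ)⁵`. -/
theorem syzygy [IsDomain R] (c₄ c₆ τ : R) :
    C4 c₄ c₆ τ ^ 3 - C6 c₄ c₆ τ ^ 2 = (c₄ ^ 3 - c₆ ^ 2) * Fk c₄ c₆ τ ^ 5 := by
  by_cases hτ : τ = 0
  · subst hτ; simp
  · have h := syzygy_one (c₄ * τ ^ 2) (c₆ * τ ^ 3)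
    rw [C4_dehom, C6_dehom, Fk_dehom] at h
    have h6 : τ ^ 6 ≠ 0 := pow_ne_zero _ hτ
    apply mul_left_cancel₀ h6
    linear_combination h

/-! ### the Hessian identity -/

/-- `∂Fk/∂τ`. -/
def dFk (c₄ c₆ τ : R) : R :=
  (-132*c₄)*τ
  + (-1320*c₆)*τ^2
  + (-5940*c₄^2)*τ^3
  + (-15840*c₄*c₆)*τ^4
  + (35640*c₄^3 - 63360*c₆^2)*τ^5
  + (-33264*c₄^2*c₆)*τ^6
  + (-534600*c₄^4 + 506880*c₄*c₆^2)*τ^7
  + (-1283040*c₄^3*c₆ + 1267200*c₆^3)*τ^8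
  + (-1336500*c₄^5 + 1330560*c₄^2*c₆^2)*τ^9
  + (-677160*c₄^4*c₆ + 675840*c₄*c₆^3)*τ^10
  + (1093500*c₄^6 - 2322432*c₄^3*c₆^2 + 1228800*c₆^4)*τ^11

/-- `∂²Fk/∂τ²`. -/
def ddFk (c₄ c₆ τ : R) : R :=
  (-132*c₄)
  + (-2640*c₆)*τ
  + (-17820*c₄^2)*τ^2
  + (-63360*c₄*c₆)*τ^3
  + (178200*c₄^3 - 316800*c₆^2)*τ^4
  + (-199584*c₄^2*c₆)*τ^5
  + (-3742200*c₄^4 + 3548160*c₄*c₆^2)*τ^6
  + (-10264320*c₄^3*c₆ + 10137600*c₆^3)*τ^7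
  + (-12028500*c₄^5 + 11975040*c₄^2*c₆^2)*τ^8
  + (-6771600*c₄^4*c₆ + 6758400*c₄*c₆^3)*τ^9
  + (12028500*c₄^6 - 25546752*c₄^3*c₆^2 + 13516800*c₆^4)*τ^10

set_option maxHeartbeats 2000000 in
/-- **Hessian identity**: `C4` is the Hessian of the Klein form. In particular a double root of `Fk`
is a root of `C4` (when `1584 = 2⁴·3²·11` is invertible). -/
theorem hessian (c₄ c₆ τ : R) :
    1584 * C4 c₄ c₆ τ = 11 * dFk c₄ c₆ τ ^ 2 - 12 * Fk c₄ c₆ τ * ddFk c₄ c₆ τ := by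
  simp only [C4, C4_0, C4_1, C4_2, C4_3, C4_4, C4_5, C4_6, C4_7, C4_8, C4_9, C4_10, C4_11, C4_12, C4_13, C4_14, C4_15, C4_16, C4_17, C4_18, C4_19, C4_20, Fk, Fk_0, Fk_2, Fk_3, Fk_4, Fk_5, Fk_6, Fk_7, Fk_8, Fk_9, Fk_10, Fk_11, Fk_12, dFk, ddFk]; ring

/-! ### the symmetry `c ↦ -1/c` (Tate parameter of `2P`) -/

theorem q5'_symm {K : Type*} [Field K] (c τ : K) (hc : c ≠ 0) :
    q5' c τ = q5 (-c⁻¹) (c ^ 2 * τ) := by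
  simp only [q5, q5_0, q5_1, q5_2, q5_3, q5_4, q5_5, q5', q5'_0, q5'_1, q5'_2, q5'_3, q5'_4, q5'_5]
  field_simp
  ring

theorem q5_symm {K : Type*} [Field K] (c τ : K) (hc : c ≠ 0) :
    q5 c τ = q5' (-c⁻¹) (c ^ 2 * τ) := by
  simp only [q5, q5_0, q5_1, q5_2, q5_3, q5_4, q5_5, q5', q5'_0, q5'_1, q5'_2, q5'_3, q5'_4, q5'_5]
  field_simp
  ring

end Fermat.Agent.S52.Fam
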