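import Fermat.Agent.S52.Fam.Syz
import Fermat.Agent.S52.B.Hom

/-!
# S52 / Fam: Lemma SS — the homogenised forms `C4h` and `Fkh` have no common zero

`k` a field in which `2, 3, 5` are invertible, `c₄³ ≠ c₆²`, `(m, n) ≠ (0, 0)`.  Then
`C4h c₄ c₆ m n` and `Fkh c₄ c₆ m n` do not both vanish (`lemma_SS`).  Consequently every member of the
family with `Δ = 0` has `c₄ ≠ 0` (multiplicative reduction), and `Fk` is squarefree.

Proof: over the algebraic closure write `(c₄, c₆) = (u⁴ tc4 c, u⁶ tc6 c)` (`exists_tate_params`,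
pure algebra), use the Tate form of the family (`C4_tate_one`, `Fk_tate_one`, `quad_tate_one`) and
the Bezout certificates `cert_affine`, `cert_infty`.
-/

set_option autoImplicit false
set_option linter.unusedVariables false

namespace Fermat.Agent.S52.Fam

open Polynomial

/-! ### elementary facts on the Tate normal form invariants -/

theorem tate_disc {R : Type*} [CommRing R] (c : R) : tc4 c ^ 3 - tc6 c ^ 2 = 1728 * tΔ c := by
  simp only [tc4, tc6, tΔ]; ring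

theorem tc4_eq_quad {R : Type*} [CommRing R] (c : R) :
    tc4 c = (c ^ 2 - 11 * c - 1) * (c ^ 2 - c - 1) + 5 * c ^ 2 := by
  simp only [tc4]; ring

theorem C4hom_eq_quad {R : Type*} [CommRing R] (X Z : R) :
    C4hom X Z = (X ^ 2 - 11 * X * Z - Z ^ 2) * (X ^ 2 - X * Z + 4 * Z ^ 2) + 5 * Z ^ 3 * (11 * X + Z) := by
  simp only [C4hom]; ring

section Field

variable {K : Type*} [Field K]

/-- `C4hom` and the quadratic form `X² - 11XZ - Z²` have no common zero (char ≠ 5). -/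
theorem eq_zero_of_C4hom_quad (h5 : (5 : K) ≠ 0) {X Z : K} (h4 : C4hom X Z = 0)
    (hq : X ^ 2 - 11 * X * Z - Z ^ 2 = 0) : X = 0 ∧ Z = 0 := by
  have h := C4hom_eq_quad X Z
  rw [h4, hq, zero_mul, zero_add] at h
  have hZ : Z ^ 3 * (11 * X + Z) = 0 := by
    have : (5 : K) * (Z ^ 3 * (11 * X + Z)) = 0 := by linear_combination -h
    exact (mul_eq_zero.mp this).resolve_left h5
  rcases mul_eq_zero.mp hZ with hZ0 | hZ1
  · have hZ' : Z = 0 := pow_eq_zero_iff (by norm_num) |>.mp hZ0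
    subst hZ'
    have : X ^ 2 = 0 := by linear_combination hq
    exact ⟨pow_eq_zero_iff (by norm_num) |>.mp this, rfl⟩
  · have hZ' : Z = -11 * X := by linear_combination hZ1
    subst hZ'
    have : X ^ 2 = 0 := by linear_combination hq
    have hX : X = 0 := pow_eq_zero_iff (by norm_num) |>.mp this
    exact ⟨hX, by rw [hX]; ring⟩

theorem tΔ_ne_zero_iff {c : K} : tΔ c ≠ 0 ↔ c ≠ 0 ∧ c ^ 2 - 11 * c - 1 ≠ 0 := by
  simp only [tΔ, ne_eq, mul_eq_zero, pow_eq_zero_iff, OfNat.ofNat_ne_zero, not_false_eq_true,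
    not_or]

theorem κ2_ne_zero (h2 : (2 : K) ≠ 0) (h3 : (3 : K) ≠ 0) (h5 : (5 : K) ≠ 0) :
    ((κ2 : ℤ) : K) ≠ 0 := by
  have : ((κ2 : ℤ) : K) = 2 ^ 12 * 3 ^ 6 * 5 := by
    simp only [κ2]; push_cast; norm_num
  rw [this]
  exact mul_ne_zero (mul_ne_zero (pow_ne_zero _ h2) (pow_ne_zero _ h3)) h5

/-- abstract core: Tate data `(X', Z, L)` with `C4hom (c X') Z = 0`, `X' Z L = 0`, the fifth-power
identity and a Bezout certificate for `(L, Z)` is contradictory. -/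
theorem false_of_tate_data (h2 : (2 : K) ≠ 0) (h3 : (3 : K) ≠ 0) (h5 : (5 : K) ≠ 0)
    {c X' Z L U V : K} (hc : c ≠ 0) (hq : c ^ 2 - 11 * c - 1 ≠ 0)
    (h4 : C4hom (c * X') Z = 0) (hF : X' * Z * L = 0)
    (hquad : (c * X') ^ 2 - 11 * (c * X') * Z - Z ^ 2 = (c ^ 2 - 11 * c - 1) * L ^ 5)
    (hcert : U * L + V * Z = ((κ2 : ℤ) : K) * c ^ 10 * (c ^ 2 - 11 * c - 1)) : False := by
  -- first: X = Z = 0
  have hXZ : c * X' = 0 ∧ Z = 0 := by
    rcases mul_eq_zero.mp hF with h12 | h3'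
    · rcases mul_eq_zero.mp h12 with h1 | h2'
      · have hX : c * X' = 0 := by rw [h1, mul_zero]
        rw [hX] at h4
        have : Z ^ 4 = 0 := by
          simp only [C4hom] at h4; linear_combination h4
        exact ⟨hX, pow_eq_zero_iff (by norm_num) |>.mp this⟩
      · rw [h2'] at h4
        have : (c * X') ^ 4 = 0 := by
          simp only [C4hom] at h4; linear_combination h4
        exact ⟨pow_eq_zero_iff (by norm_num) |>.mp this, h2'⟩
    · have hq0 : (c * X') ^ 2 - 11 * (c * X') * Z - Z ^ 2 = 0 := by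
        rw [hquad, h3']; ring
      exact eq_zero_of_C4hom_quad h5 h4 hq0
  obtain ⟨hX, hZ⟩ := hXZ
  have hL : L = 0 := by
    have : (c ^ 2 - 11 * c - 1) * L ^ 5 = 0 := by
      rw [← hquad, hX, hZ]; ring
    rcases mul_eq_zero.mp this with h | h
    · exact absurd h hq
    · exact pow_eq_zero_iff (by norm_num) |>.mp h
  rw [hL, hZ, mul_zero, mul_zero, add_zero] at hcert
  have : ((κ2 : ℤ) : K) * c ^ 10 * (c ^ 2 - 11 * c - 1) ≠ 0 :=
    mul_ne_zero (mul_ne_zero (κ2_ne_zero h2 h3 h5) (pow_ne_zero _ hc)) hq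
  exact this hcert.symm

/-- **Affine chart**: in Tate coordinates the family has no cuspidal fibre. -/
theorem no_common_zero_tate (h2 : (2 : K) ≠ 0) (h3 : (3 : K) ≠ 0) (h5 : (5 : K) ≠ 0)
    {c τ : K} (hc : c ≠ 0) (hq : c ^ 2 - 11 * c - 1 ≠ 0)
    (h4 : C4 (tc4 c) (tc6 c) τ = 0) (hF : Fk (tc4 c) (tc6 c) τ = 0) : False := by
  rw [C4_tate_one] at h4
  rw [Fk_tate_one] at hF
  exact false_of_tate_data h2 h3 h5 hc hq h4 hF (quad_tate_one c τ) (cert_affine c τ)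

end Field

/-! ### leading coefficients (chart at infinity) -/

section Top

variable {R : Type*} [CommRing R]

theorem C4_20_weight (a b u : R) : C4_20 (u ^ 4 * a) (u ^ 6 * b) = u ^ 44 * C4_20 a b := by
  simp only [C4_20]; ring

theorem Fk_12_weight (a b u : R) : Fk_12 (u ^ 4 * a) (u ^ 6 * b) = u ^ 24 * Fk_12 a b := by
  simp only [Fk_12]; ring

set_option maxHeartbeats 2000000 in
theorem top_C4 (c : R) : C4_20 (tc4 c) (tc6 c) = C4hom (c * q5_5 c) (q5'_5 c) := by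
  simp only [C4_20, tc4, tc6, C4hom, q5_5, q5'_5]; ring

set_option maxHeartbeats 2000000 in
theorem top_Fk (c : R) :
    Fk_12 (tc4 c) (tc6 c) = q5_5 c * q5'_5 c * (c ^ 4 - 178 * c ^ 2 + 1) := by
  simp only [Fk_12, tc4, tc6, q5_5, q5'_5]; ring

set_option maxHeartbeats 2000000 in
theorem top_quad (c : R) :
    (c * q5_5 c) ^ 2 - 11 * (c * q5_5 c) * q5'_5 c - q5'_5 c ^ 2 =
      (c ^ 2 - 11 * c - 1) * (c ^ 4 - 178 * c ^ 2 + 1) ^ 5 := by
  simp only [q5_5, q5'_5]; ring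

end Top

section Final

variable {K : Type*} [Field K]

/-- **Chart at infinity**. -/
theorem no_common_zero_top (h2 : (2 : K) ≠ 0) (h3 : (3 : K) ≠ 0) (h5 : (5 : K) ≠ 0)
    {c : K} (hc : c ≠ 0) (hq : c ^ 2 - 11 * c - 1 ≠ 0)
    (h4 : C4_20 (tc4 c) (tc6 c) = 0) (hF : Fk_12 (tc4 c) (tc6 c) = 0) : False := by
  rw [top_C4] at h4
  rw [top_Fk] at hF
  exact false_of_tate_data h2 h3 h5 hc hq h4 hF (top_quad c) (cert_infty c)

/-- **Tate parameters exist** over an algebraically closed field (pure algebra: `c` is a root of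
the degree-12 equation `j_T(c) = j`, then `u`). -/
theorem exists_tate_params [IsAlgClosed K] (h2 : (2 : K) ≠ 0) (h3 : (3 : K) ≠ 0)
    (h5 : (5 : K) ≠ 0) (c₄ c₆ : K) (hΔ : c₄ ^ 3 ≠ c₆ ^ 2) :
    ∃ c u : K, u ≠ 0 ∧ c ≠ 0 ∧ c ^ 2 - 11 * c - 1 ≠ 0 ∧
      c₄ = u ^ 4 * tc4 c ∧ c₆ = u ^ 6 * tc6 c := by
  have hD0 : c₄ ^ 3 - c₆ ^ 2 ≠ 0 := sub_ne_zero.mpr hΔ
  have h1728 : (1728 : K) ≠ 0 := by
    have : (1728 : K) = 2 ^ 6 * 3 ^ 3 := by norm_num
    rw [this]; exact mul_ne_zero (pow_ne_zero _ h2) (pow_ne_zero _ h3)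
  -- the polynomial
  set P4 : K[X] := X ^ 4 - 12 * X ^ 3 + 14 * X ^ 2 + 12 * X + 1 with hP4
  set PΔ : K[X] := X ^ 5 * (X ^ 2 - 11 * X - 1) with hPΔ
  set p : K[X] := C (c₄ ^ 3 - c₆ ^ 2) * P4 ^ 3 - C (1728 * c₄ ^ 3) * PΔ with hp
  have hP4deg : P4.natDegree = 4 := by
    rw [hP4]; compute_degree!
  have hPΔdeg : PΔ.natDegree ≤ 7 := by
    rw [hPΔ]; compute_degree
  have hd1 : (C (c₄ ^ 3 - c₆ ^ 2) * P4 ^ 3).natDegree = 12 := by
    rw [natDegree_C_mul hD0, natDegree_pow, hP4deg]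
  have hd2 : (C (1728 * c₄ ^ 3) * PΔ).natDegree < (C (c₄ ^ 3 - c₆ ^ 2) * P4 ^ 3).natDegree := by
    rw [hd1]
    exact lt_of_le_of_lt ((natDegree_C_mul_le _ _).trans hPΔdeg) (by norm_num)
  have hdeg : p.natDegree = 12 := by
    rw [hp, natDegree_sub_eq_left_of_natDegree_lt hd2, hd1]
  have hdeg' : p.degree ≠ 0 := by
    intro h
    have := natDegree_eq_zero_iff_degree_le_zero.mpr h.le
    omega
  obtain ⟨c, hc⟩ := IsAlgClosed.exists_root p hdeg'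
  have e : (c₄ ^ 3 - c₆ ^ 2) * tc4 c ^ 3 = 1728 * c₄ ^ 3 * tΔ c := by
    have := hc
    simp only [IsRoot, hp, hP4, hPΔ, eval_sub, eval_mul, eval_C, eval_pow, eval_add, eval_X,
      eval_one, eval_ofNat] at this
    simp only [tc4, tΔ]
    linear_combination this
  have hdisc := tate_disc c
  -- `tΔ c ≠ 0`
  have htΔ : tΔ c ≠ 0 := by
    intro h0
    rw [h0, mul_zero] at e
    have ht4 : tc4 c = 0 := by
      rcases mul_eq_zero.mp e with h | h
      · exact absurd h hD0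
      · exact pow_eq_zero_iff (by norm_num) |>.mp h
    simp only [tΔ, mul_eq_zero, pow_eq_zero_iff, ne_eq, OfNat.ofNat_ne_zero,
      not_false_eq_true] at h0
    rcases h0 with h | h
    · subst h
      simp [tc4] at ht4
    · have h' := tc4_eq_quad c
      rw [ht4, h, zero_mul, zero_add] at h'
      have hc0 : c = 0 := by
        have : c ^ 2 = 0 := (mul_eq_zero.mp h'.symm).resolve_left h5
        exact pow_eq_zero_iff (by norm_num) |>.mp this
      subst hc0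
      norm_num at h
  obtain ⟨hc0, hcq⟩ := tΔ_ne_zero_iff.mp htΔ
  by_cases h4 : c₄ = 0
  · -- `j = 0`
    subst h4
    have ht4 : tc4 c = 0 := by
      have : (0 ^ 3 - c₆ ^ 2) * tc4 c ^ 3 = 0 := by rw [e]; ring
      rcases mul_eq_zero.mp this with h | h
      · exact absurd h hD0
      · exact pow_eq_zero_iff (by norm_num) |>.mp h
    have ht6 : tc6 c ≠ 0 := by
      intro h
      rw [ht4, h] at hdisc
      have : (1728 : K) * tΔ c = 0 := by rw [← hdisc]; ring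
      exact (mul_ne_zero h1728 htΔ) this
    obtain ⟨u, hu⟩ := IsAlgClosed.exists_pow_nat_eq (c₆ / tc6 c) (n := 6) (by norm_num)
    have hc6 : c₆ ≠ 0 := by
      intro h; apply hD0; rw [h]; ring
    have hu0 : u ≠ 0 := by
      intro h; rw [h] at hu
      have : c₆ / tc6 c = 0 := by rw [← hu]; ring
      exact (div_ne_zero hc6 ht6) this
    refine ⟨c, u, hu0, hc0, hcq, ?_, ?_⟩
    · rw [ht4, mul_zero]
    · rw [hu]; field_simp
  · -- `j ≠ 0`
    have ht4 : tc4 c ≠ 0 := by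
      intro h
      rw [h] at e
      have : (1728 : K) * c₄ ^ 3 * tΔ c = 0 := by rw [← e]; ring
      exact (mul_ne_zero (mul_ne_zero h1728 (pow_ne_zero _ h4)) htΔ) this
    obtain ⟨u₀, hu₀⟩ := IsAlgClosed.exists_pow_nat_eq (c₄ / tc4 c) (n := 4) (by norm_num)
    have hu₀0 : u₀ ≠ 0 := by
      intro h; rw [h] at hu₀
      have : c₄ / tc4 c = 0 := by rw [← hu₀]; ring
      exact (div_ne_zero h4 ht4) this
    have h44 : c₄ = u₀ ^ 4 * tc4 c := by rw [hu₀]; field_simp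
    have key : c₆ ^ 2 * tc4 c ^ 3 = c₄ ^ 3 * tc6 c ^ 2 := by
      linear_combination (-1 : K) * e + c₄ ^ 3 * hdisc
    have hsq : c₆ ^ 2 = (u₀ ^ 6 * tc6 c) ^ 2 := by
      have h3' : tc4 c ^ 3 ≠ 0 := pow_ne_zero _ ht4
      apply mul_right_cancel₀ h3'
      rw [key, h44]; ring
    rcases sq_eq_sq_iff_eq_or_eq_neg.mp hsq with h | h
    · exact ⟨c, u₀, hu₀0, hc0, hcq, h44, h⟩
    · obtain ⟨i, hi⟩ := IsAlgClosed.exists_pow_nat_eq (-1 : K) (n := 2) (by norm_num)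
      have hi0 : i ≠ 0 := by
        intro h0; rw [h0] at hi; norm_num at hi
      refine ⟨c, i * u₀, mul_ne_zero hi0 hu₀0, hc0, hcq, ?_, ?_⟩
      · have : (i * u₀) ^ 4 = (i ^ 2) ^ 2 * u₀ ^ 4 := by ring
        rw [this, hi]
        linear_combination h44
      · have : (i * u₀) ^ 6 = (i ^ 2) ^ 3 * u₀ ^ 6 := by ring
        rw [this, hi, h]; ring

theorem C4h_zero_right {R : Type*} [CommRing R] (c₄ c₆ m : R) :
    B.C4h c₄ c₆ m 0 = C4_20 c₄ c₆ * m ^ 20 := by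
  simp [B.C4h]

theorem Fkh_zero_right {R : Type*} [CommRing R] (c₄ c₆ m : R) :
    B.Fkh c₄ c₆ m 0 = Fk_12 c₄ c₆ * m ^ 12 := by
  simp [B.Fkh]

/-- Lemma SS over an algebraically closed field. -/
theorem lemma_SS_algClosed [IsAlgClosed K] (h2 : (2 : K) ≠ 0) (h3 : (3 : K) ≠ 0)
    (h5 : (5 : K) ≠ 0) (c₄ c₆ m n : K) (hΔ : c₄ ^ 3 ≠ c₆ ^ 2) (hmn : m ≠ 0 ∨ n ≠ 0) :
    ¬ (B.C4h c₄ c₆ m n = 0 ∧ B.Fkh c₄ c₆ m n = 0) := by
  rintro ⟨h4, hF⟩
  obtain ⟨c, u, hu, hc, hq, e4, e6⟩ := exists_tate_params h2 h3 h5 c₄ c₆ hΔ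
  by_cases hn : n = 0
  · subst hn
    have hm : m ≠ 0 := hmn.resolve_right (by simp)
    rw [C4h_zero_right] at h4
    rw [Fkh_zero_right] at hF
    have h4' : C4_20 c₄ c₆ = 0 := (mul_eq_zero.mp h4).resolve_right (pow_ne_zero _ hm)
    have hF' : Fk_12 c₄ c₆ = 0 := (mul_eq_zero.mp hF).resolve_right (pow_ne_zero _ hm)
    rw [e4, e6, C4_20_weight] at h4'
    rw [e4, e6, Fk_12_weight] at hF'
    exact no_common_zero_top h2 h3 h5 hc hq
      ((mul_eq_zero.mp h4').resolve_left (pow_ne_zero _ hu))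
      ((mul_eq_zero.mp hF').resolve_left (pow_ne_zero _ hu))
  · rw [B.C4h_eq_pow_mul _ _ _ hn] at h4
    rw [B.Fkh_eq_pow_mul _ _ _ hn] at hF
    have h4' : C4 c₄ c₆ (m / n) = 0 := (mul_eq_zero.mp h4).resolve_left (pow_ne_zero _ hn)
    have hF' : Fk c₄ c₆ (m / n) = 0 := (mul_eq_zero.mp hF).resolve_left (pow_ne_zero _ hn)
    rw [e4, e6, C4_weight] at h4'
    rw [e4, e6, Fk_weight] at hF'
    exact no_common_zero_tate h2 h3 h5 hc hq
      ((mul_eq_zero.mp h4').resolve_left (pow_ne_zero _ hu)) hF'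

/-- **Lemma SS**: `k` a field with `2, 3, 5 ≠ 0`, `c₄³ ≠ c₆²`, `(m, n) ≠ (0, 0)`: the homogenised
forms `C4h` and `Fkh` do not vanish simultaneously. -/
theorem lemma_SS {k : Type*} [Field k] (h2 : (2 : k) ≠ 0) (h3 : (3 : k) ≠ 0) (h5 : (5 : k) ≠ 0)
    (c₄ c₆ m n : k) (hΔ : c₄ ^ 3 ≠ c₆ ^ 2) (hmn : m ≠ 0 ∨ n ≠ 0) :
    ¬ (B.C4h c₄ c₆ m n = 0 ∧ B.Fkh c₄ c₆ m n = 0) := by
  rintro ⟨h4, hF⟩
  let f : k →+* AlgebraicClosure k := algebraMap k (AlgebraicClosure k)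
  have hf : Function.Injective f := (algebraMap k (AlgebraicClosure k)).injective
  have hne : ∀ {x : k}, x ≠ 0 → f x ≠ 0 := fun hx h => hx (hf (by rw [h, map_zero]))
  have h2' : (2 : AlgebraicClosure k) ≠ 0 := by
    have := hne h2; rwa [map_ofNat] at this
  have h3' : (3 : AlgebraicClosure k) ≠ 0 := by
    have := hne h3; rwa [map_ofNat] at this
  have h5' : (5 : AlgebraicClosure k) ≠ 0 := by
    have := hne h5; rwa [map_ofNat] at this
  have hΔ' : f c₄ ^ 3 ≠ f c₆ ^ 2 := by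
    intro h
    apply hΔ
    apply hf
    rw [map_pow, map_pow, h]
  have hmn' : f m ≠ 0 ∨ f n ≠ 0 := hmn.imp hne hne
  refine lemma_SS_algClosed h2' h3' h5' (f c₄) (f c₆) (f m) (f n) hΔ' hmn' ⟨?_, ?_⟩
  · rw [← B.map_C4h, h4, map_zero]
  · rw [← B.map_Fkh, hF, map_zero]

/-- Affine form of Lemma SS: a zero of `Fk` is not a zero of `C4`. -/
theorem C4_ne_zero_of_Fk_eq_zero {k : Type*} [Field k] (h2 : (2 : k) ≠ 0) (h3 : (3 : k) ≠ 0)
    (h5 : (5 : k) ≠ 0) (c₄ c₆ τ : k) (hΔ : c₄ ^ 3 ≠ c₆ ^ 2) (hF : Fk c₄ c₆ τ = 0) :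
    C4 c₄ c₆ τ ≠ 0 := by
  intro h4
  refine lemma_SS h2 h3 h5 c₄ c₆ τ 1 hΔ (Or.inr one_ne_zero) ⟨?_, ?_⟩
  · rw [B.C4h_one, h4]
  · rw [B.Fkh_one, hF]

/-- `Fk` has only simple zeros (char `∉ {2,3,5,11}`): a common zero of `Fk` and `∂Fk/∂τ` would be
a zero of `C4` by the Hessian identity. -/
theorem dFk_ne_zero_of_Fk_eq_zero {k : Type*} [Field k] (h2 : (2 : k) ≠ 0) (h3 : (3 : k) ≠ 0)
    (h5 : (5 : k) ≠ 0) (h11 : (11 : k) ≠ 0) (c₄ c₆ τ : k) (hΔ : c₄ ^ 3 ≠ c₆ ^ 2)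
    (hF : Fk c₄ c₆ τ = 0) : dFk c₄ c₆ τ ≠ 0 := by
  intro hd
  have h := hessian c₄ c₆ τ
  rw [hF, hd] at h
  have h1584 : (1584 : k) * C4 c₄ c₆ τ = 0 := by rw [h]; ring
  have hC4 := C4_ne_zero_of_Fk_eq_zero h2 h3 h5 c₄ c₆ τ hΔ hF
  have hne : (1584 : k) ≠ 0 := by
    have : (1584 : k) = 2 ^ 4 * 3 ^ 2 * 11 := by norm_num
    rw [this]
    exact mul_ne_zero (mul_ne_zero (pow_ne_zero _ h2) (pow_ne_zero _ h3)) h11
  exact (mul_ne_zero hne hC4) h1584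

end Final

end Fermat.Agent.S52.Fam
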