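import Fermat.Agent.S52.Fam.Ident

/-!
# S52 / Fam: factorisation of the twisted Klein form in Tate coordinates and Bezout certificates.

With `X = c * q5 c τ`, `Z = q5' c τ`, `q2 c τ = 1 - 2(c²+1)τ + (c⁴-178c²+1)τ²`:
* `Fk_tate_one`   : `Fk (tc4 c) (tc6 c) τ = q5 c τ * q5' c τ * q2 c τ`
* `quad_tate_one` : `X² - 11XZ - Z² = (c² - 11c - 1) * q2 c τ ^ 5`
* `cert_affine`   : `U0 * q2 + V0 * q5' = κ * c^10 * (c²-11c-1)`   (so `q2`, `q5'` have no common zero)
* `cert_infty`    : the same for the leading coefficients in `τ`.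
-/

set_option autoImplicit false
set_option linter.unusedVariables false

namespace Fermat.Agent.S52.Fam

open Fermat.Agent.S52.Refl

variable {R : Type*} [CommRing R]

/-- the quadratic factor of the twisted Klein form in Tate coordinates. -/
def q2 (c τ : R) : R := 1 - 2 * (c^2 + 1) * τ + (c^4 - 178 * c^2 + 1) * τ^2

/-- table of `q2`. -/
def q2L : List (List ℤ) := [[1], [-2, 0, -2], [1, 0, -178, 0, 1]]

lemma q2_eq_beval (c τ : R) : q2 c τ = beval c τ q2L := by
  simp only [q2, q2L, beval, ueval]; push_cast; ring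

/-- Bezout cofactor of `q2` (affine chart). -/
def U0L : List (List ℤ) :=
  [[0, 0, 0, 0, 5, 396, 13458, 239580, 2440515, 13547160, 16708060, -150681960, 14950875, 239580, -30030, 396, -67],
   [0, 0, 0, 0, -20, -1848, -74540, -1664784, -22232148, -180556200, -852227980, -1912241760, -538201180, -189632520, 11640540, 4075632, -293180, 7656, -548],
   [0, 0, 0, 0, 30, 3168, 148416, 3986928, 67039608, 725535360, 4976724192, 19972933200, 36034696740, -1022868000, 3323598720, 40149648, -3021864, -8978112, 600288, -23760, 1902],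
   [0, 0, 0, 0, -20, -2376, -127044, -3985344, -80568720, -1087907040, -9839163408, -57922869312, -205276574232, -359419270320, -147436949880, -24679803456, -2358392784, 773711136, -51472080, 9852480, -658548, 22968, -1892],
   [0, 0, 0, 0, 5, 660, 39710, 1423620, 33560505, 543114000, 6123808680, 47750305680, 248637700410, 795294834840, 1268646324660, 423492541560, 142848874410, 7359984720, 1107280680, -614631600, 39797505, -4334220, 303710, -7260, 605]]

/-- Bezout cofactor of `q5'` (affine chart). -/
def V0L : List (List ℤ) :=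
  [[0, 0, 0, 0, -5, -396, -13458, -239580, -2440515, -13547160, -31637980, -13547160, -20955, -239580, 30030, -396, 67],
   [0, 0, 0, 0, 5, 330, 8075, 61380, -780555, -19003050, -144693725, -423040200, -71232425, -19003050, 2685705, 61380, -3025, 330, -55]]

/-- Bezout cofactor of the leading coefficient of `q2` (chart at infinity). -/
def A6L : List ℤ := [0, 0, 0, 0, 5, 264, 5516, 49896, 241950, 906840, -81268, 1848, -187]

/-- Bezout cofactor of the leading coefficient of `q5'` (chart at infinity). -/
def B6L : List ℤ := [0, 0, 0, 0, 5, -66, 17]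

/-- `κ * c^10 * (c² - 11c - 1)` with `κ = 14929920 = 2^12 * 3^6 * 5`. -/
def R2L : List ℤ := [0, 0, 0, 0, 0, 0, 0, 0, 0, 0, -14929920, -164229120, 14929920]

/-- the constant `κ = 2^12 * 3^6 * 5`. -/
def κ2 : ℤ := 14929920

/-- Bezout cofactor of `q2` (affine chart), as a function. -/
def U0 (c τ : R) : R := beval c τ U0L

/-- Bezout cofactor of `q5'` (affine chart), as a function. -/
def V0 (c τ : R) : R := beval c τ V0L

/-- cofactor at infinity -/
def A6 (c : R) : R := ueval c A6L

/-- cofactor at infinity -/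
def B6 (c : R) : R := ueval c B6L

theorem check_Fk : beq (tsubst tc4L tc6L FkT) (bmul q5L (bmul q5L' q2L)) = true := by
  decide +kernel

theorem check_quad :
    beq (badd (bpow XL 2) (badd (bzsmul (-11) (bmul XL q5L')) (bzsmul (-1) (bpow q5L' 2))))
      (bsmul [-1, -11, 1] (bpow q2L 5)) = true := by
  decide +kernel

theorem check_cert0 : beq (badd (bmul U0L q2L) (bmul V0L q5L')) [R2L] = true := by
  decide +kernel

theorem check_cert6 :
    uzero (uadd (uadd (umul A6L [1, 0, -178, 0, 1]) (umul B6L [-1, -66, -1793, -24024, -163042, -475596, -80938, -24024, 2563, -66, 11])) (usmul (-1) R2L)) = true := by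
  decide +kernel

lemma ueval_R2L (c : R) : ueval c R2L = (κ2 : R) * c ^ 10 * (c ^ 2 - 11 * c - 1) := by
  simp only [R2L, κ2, ueval]; push_cast; ring

/-- **Klein form in Tate coordinates.** -/
theorem Fk_tate_one (c τ : R) :
    Fk (tc4 c) (tc6 c) τ = q5 c τ * q5' c τ * q2 c τ := by
  rw [Fk_eq_teval, tc4_eq_ueval, tc6_eq_ueval, ← beval_tsubst,
    beval_eq_of_beq c τ _ _ check_Fk, beval_bmul, beval_bmul, ← q5_eq_beval, ← q5'_eq_beval,
    ← q2_eq_beval]
  ring

/-- **The quadratic form `X² - 11XZ - Z²` is a fifth power.** -/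
theorem quad_tate_one (c τ : R) :
    (c * q5 c τ) ^ 2 - 11 * (c * q5 c τ) * q5' c τ - q5' c τ ^ 2 =
      (c ^ 2 - 11 * c - 1) * q2 c τ ^ 5 := by
  have h := beval_eq_of_beq c τ _ _ check_quad
  simp only [beval_badd, beval_bzsmul, beval_bmul, beval_bpow, beval_bsmul, beval_XL,
    ← q5'_eq_beval, ← q2_eq_beval, ueval] at h
  push_cast at h
  linear_combination h

/-- **Bezout certificate, affine chart.** -/
theorem cert_affine (c τ : R) :
    U0 c τ * q2 c τ + V0 c τ * q5' c τ = (κ2 : R) * c ^ 10 * (c ^ 2 - 11 * c - 1) := by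
  have h := beval_eq_of_beq c τ _ _ check_cert0
  simp only [beval_badd, beval_bmul, ← q5'_eq_beval, ← q2_eq_beval, beval_cons, beval_nil,
    ueval_R2L] at h
  simp only [U0, V0]
  linear_combination h

/-- **Bezout certificate, chart at infinity** (leading coefficients in `τ`). -/
theorem cert_infty (c : R) :
    A6 c * (c ^ 4 - 178 * c ^ 2 + 1) + B6 c * q5'_5 c =
      (κ2 : R) * c ^ 10 * (c ^ 2 - 11 * c - 1) := by
  have h := ueval_of_uzero c _ check_cert6
  simp only [ueval_uadd, ueval_umul, ueval_usmul, ueval_R2L] at h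
  have e1 : ueval c [1, 0, -178, 0, 1] = c ^ 4 - 178 * c ^ 2 + 1 := by
    simp only [ueval]; push_cast; ring
  have e2 : ueval c [-1, -66, -1793, -24024, -163042, -475596, -80938, -24024, 2563, -66, 11] = q5'_5 c := by
    simp only [q5'_5, ueval]; push_cast; ring
  rw [e1, e2] at h
  simp only [A6, B6]
  push_cast at h
  linear_combination h

end Fermat.Agent.S52.Fam
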