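import Mathlib

/-!
# S52 / Fam: a tiny reflective checker for polynomial identities in two variables with
integer coefficients (dense lists), evaluated by the kernel (`decide +kernel`).
-/

set_option autoImplicit false

namespace Fermat.Agent.S52.Refl

variable {R : Type*} [CommRing R]

/-! ### univariate polynomials as coefficient lists -/

/-- addition of coefficient lists -/
def uadd : List ℤ → List ℤ → List ℤ
  | [], q => q
  | p, [] => p
  | a :: p, b :: q => (a + b) :: uadd p q

/-- scalar multiplication -/
def usmul (k : ℤ) : List ℤ → List ℤ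
  | [] => []
  | a :: p => (k * a) :: usmul k p

/-- multiplication -/
def umul : List ℤ → List ℤ → List ℤ
  | [], _ => []
  | a :: p, q => uadd (usmul a q) (0 :: umul p q)

/-- power -/
def upow (p : List ℤ) : ℕ → List ℤ
  | 0 => [1]
  | n + 1 => umul p (upow p n)

/-- all coefficients vanish -/
def uzero : List ℤ → Bool
  | [] => true
  | a :: p => (a == 0) && uzero p

/-- evaluation (Horner) -/
def ueval (x : R) : List ℤ → R
  | [] => 0
  | a :: p => (a : R) + x * ueval x p

@[simp] lemma ueval_nil (x : R) : ueval x [] = 0 := rfl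
@[simp] lemma ueval_cons (x : R) (a : ℤ) (p : List ℤ) :
    ueval x (a :: p) = (a : R) + x * ueval x p := rfl

lemma ueval_uadd (x : R) : ∀ p q : List ℤ, ueval x (uadd p q) = ueval x p + ueval x q
  | [], q => by simp [uadd]
  | a :: p, [] => by simp [uadd]
  | a :: p, b :: q => by
      simp only [uadd, ueval_cons, ueval_uadd x p q]
      push_cast; ring

lemma ueval_usmul (x : R) (k : ℤ) : ∀ p : List ℤ, ueval x (usmul k p) = (k : R) * ueval x p
  | [] => by simp [usmul]
  | a :: p => by
      simp only [usmul, ueval_cons, ueval_usmul x k p]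
      push_cast; ring

lemma ueval_umul (x : R) : ∀ p q : List ℤ, ueval x (umul p q) = ueval x p * ueval x q
  | [], q => by simp [umul]
  | a :: p, q => by
      simp only [umul, ueval_uadd, ueval_usmul, ueval_cons, ueval_umul x p q]
      push_cast; ring

lemma ueval_upow (x : R) (p : List ℤ) : ∀ n : ℕ, ueval x (upow p n) = ueval x p ^ n
  | 0 => by simp [upow]
  | n + 1 => by simp only [upow, ueval_umul, ueval_upow x p n]; ring

lemma ueval_of_uzero (x : R) : ∀ p : List ℤ, uzero p = true → ueval x p = 0
  | [], _ => rfl
  | a :: p, h => by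
      simp only [uzero, Bool.and_eq_true, beq_iff_eq] at h
      simp [h.1, ueval_of_uzero x p h.2]

/-! ### bivariate polynomials: lists (index = degree in `τ`) of univariate lists (in `c`) -/

/-- addition -/
def badd : List (List ℤ) → List (List ℤ) → List (List ℤ)
  | [], q => q
  | p, [] => p
  | a :: p, b :: q => uadd a b :: badd p q

/-- multiplication by a univariate polynomial in `c` -/
def bsmul (k : List ℤ) : List (List ℤ) → List (List ℤ)
  | [] => []
  | a :: p => umul k a :: bsmul k p

/-- multiplication by an integer -/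
def bzsmul (k : ℤ) : List (List ℤ) → List (List ℤ)
  | [] => []
  | a :: p => usmul k a :: bzsmul k p

/-- multiplication -/
def bmul : List (List ℤ) → List (List ℤ) → List (List ℤ)
  | [], _ => []
  | a :: p, q => badd (bsmul a q) ([] :: bmul p q)

/-- power -/
def bpow (p : List (List ℤ)) : ℕ → List (List ℤ)
  | 0 => [[1]]
  | n + 1 => bmul p (bpow p n)

/-- shift by `τ^j` -/
def bshift : ℕ → List (List ℤ) → List (List ℤ)
  | 0, p => p
  | j + 1, p => [] :: bshift j p

/-- all coefficients vanish -/
def bzero : List (List ℤ) → Bool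
  | [] => true
  | a :: p => uzero a && bzero p

/-- evaluation -/
def beval (c τ : R) : List (List ℤ) → R
  | [] => 0
  | a :: p => ueval c a + τ * beval c τ p

@[simp] lemma beval_nil (c τ : R) : beval c τ [] = 0 := rfl
@[simp] lemma beval_cons (c τ : R) (a : List ℤ) (p : List (List ℤ)) :
    beval c τ (a :: p) = ueval c a + τ * beval c τ p := rfl

lemma beval_badd (c τ : R) :
    ∀ p q : List (List ℤ), beval c τ (badd p q) = beval c τ p + beval c τ q
  | [], q => by simp [badd]
  | a :: p, [] => by simp [badd]
  | a :: p, b :: q => by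
      simp only [badd, beval_cons, ueval_uadd, beval_badd c τ p q]
      ring

lemma beval_bsmul (c τ : R) (k : List ℤ) :
    ∀ p : List (List ℤ), beval c τ (bsmul k p) = ueval c k * beval c τ p
  | [] => by simp [bsmul]
  | a :: p => by
      simp only [bsmul, beval_cons, ueval_umul, beval_bsmul c τ k p]
      ring

lemma beval_bzsmul (c τ : R) (k : ℤ) :
    ∀ p : List (List ℤ), beval c τ (bzsmul k p) = (k : R) * beval c τ p
  | [] => by simp [bzsmul]
  | a :: p => by
      simp only [bzsmul, beval_cons, ueval_usmul, beval_bzsmul c τ k p]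
      ring

lemma beval_bmul (c τ : R) :
    ∀ p q : List (List ℤ), beval c τ (bmul p q) = beval c τ p * beval c τ q
  | [], q => by simp [bmul]
  | a :: p, q => by
      simp only [bmul, beval_badd, beval_bsmul, beval_cons, ueval_nil, beval_bmul c τ p q]
      ring

lemma beval_bpow (c τ : R) (p : List (List ℤ)) :
    ∀ n : ℕ, beval c τ (bpow p n) = beval c τ p ^ n
  | 0 => by simp [bpow]
  | n + 1 => by simp only [bpow, beval_bmul, beval_bpow c τ p n]; ring

lemma beval_bshift (c τ : R) :
    ∀ (j : ℕ) (p : List (List ℤ)), beval c τ (bshift j p) = τ ^ j * beval c τ p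
  | 0, p => by simp [bshift]
  | j + 1, p => by
      simp only [bshift, beval_cons, ueval_nil, beval_bshift c τ j p]
      ring

lemma beval_of_bzero (c τ : R) : ∀ p : List (List ℤ), bzero p = true → beval c τ p = 0
  | [], _ => rfl
  | a :: p, h => by
      simp only [bzero, Bool.and_eq_true] at h
      simp [ueval_of_uzero c a h.1, beval_of_bzero c τ p h.2]

/-- equality test -/
def beq (p q : List (List ℤ)) : Bool := bzero (badd p (bzsmul (-1) q))

lemma beval_eq_of_beq (c τ : R) (p q : List (List ℤ)) (h : beq p q = true) :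
    beval c τ p = beval c τ q := by
  have := beval_of_bzero c τ _ h
  rw [beval_badd, beval_bzsmul] at this
  push_cast at this
  linear_combination this

/-! ### sparse tables in three variables `(c₄, c₆, τ)` and substitution of univariate polynomials
for `c₄`, `c₆` -/

/-- evaluation of a sparse table: entries `(k, a, b, j)` stand for `k * c₄^a * c₆^b * τ^j`. -/
def teval (c₄ c₆ τ : R) : List (ℤ × ℕ × ℕ × ℕ) → R
  | [] => 0
  | (k, a, b, j) :: l => (k : R) * c₄ ^ a * c₆ ^ b * τ ^ j + teval c₄ c₆ τ l

/-- substitute `c₄ = A(c)`, `c₆ = B(c)`. -/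
def tsubst (A B : List ℤ) : List (ℤ × ℕ × ℕ × ℕ) → List (List ℤ)
  | [] => []
  | (k, a, b, j) :: l =>
      badd (bshift j [usmul k (umul (upow A a) (upow B b))]) (tsubst A B l)

lemma beval_tsubst (c τ : R) (A B : List ℤ) :
    ∀ l : List (ℤ × ℕ × ℕ × ℕ),
      beval c τ (tsubst A B l) = teval (ueval c A) (ueval c B) τ l
  | [] => rfl
  | (k, a, b, j) :: l => by
      simp only [tsubst, teval, beval_badd, beval_bshift, beval_cons, beval_nil, ueval_usmul,
        ueval_umul, ueval_upow, beval_tsubst c τ A B l]
      ring

/-! ### flattening a table at `τ = 1` to a bivariate polynomial in `(c₄, c₆)` -/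

/-- the univariate monomial `k * x^a` -/
def umono (k : ℤ) : ℕ → List ℤ
  | 0 => [k]
  | a + 1 => 0 :: umono k a

lemma ueval_umono (x : R) (k : ℤ) : ∀ a : ℕ, ueval x (umono k a) = (k : R) * x ^ a
  | 0 => by simp [umono]
  | a + 1 => by simp only [umono, ueval_cons, ueval_umono x k a]; push_cast; ring

/-- flatten at `τ = 1`: inner variable `c₄`, outer variable `c₆`. -/
def tflat : List (ℤ × ℕ × ℕ × ℕ) → List (List ℤ)
  | [] => []
  | (k, a, b, _) :: l => badd (bshift b [umono k a]) (tflat l)

lemma beval_tflat (x y : R) :
    ∀ l : List (ℤ × ℕ × ℕ × ℕ), beval x y (tflat l) = teval x y 1 l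
  | [] => rfl
  | (k, a, b, j) :: l => by
      simp only [tflat, teval, beval_badd, beval_bshift, beval_cons, beval_nil, ueval_umono,
        beval_tflat x y l]
      ring

end Fermat.Agent.S52.Refl
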