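import Fermat.Agent.S52.Fam.Refl
import Fermat.Agent.S52.Fam.Defs

/-!
# S52 / Fam: coefficient tables of the family data and bridges to the explicit definitions.
-/

set_option autoImplicit false
set_option linter.unusedVariables false

namespace Fermat.Agent.S52.Fam

open Fermat.Agent.S52.Refl

variable {R : Type*} [CommRing R]

/-- table of `q5` (outer index: degree in `τ`, inner: degree in `c`). -/
def q5L : List (List ℤ) :=
  [[1],
   [7, 66, -5],
   [-38, -264, 1772, -264, 10],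
   [62, 396, -966, 24552, -5358, 396, -10],
   [-43, -264, -3364, -48312, 164046, -48312, 5372, -264, 5],
   [11, 66, 2563, 24024, -80938, 475596, -163042, 24024, -1793, 66, -1]]

/-- table of `q5'`. -/
def q5L' : List (List ℤ) :=
  [[1],
   [-5, -66, 7],
   [10, 264, 1772, 264, -38],
   [-10, -396, -5358, -24552, -966, -396, 62],
   [5, 264, 5372, 48312, 164046, 48312, -3364, 264, -43],
   [-1, -66, -1793, -24024, -163042, -475596, -80938, -24024, 2563, -66, 11]]

/-- table of `tc4`. -/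
def tc4L : List ℤ := [1, 12, 14, -12, 1]

/-- table of `tc6`. -/
def tc6L : List ℤ := [-1, -18, -75, 0, -75, 18, -1]

/-- table of `tΔ`. -/
def tΔL : List ℤ := [0, 0, 0, 0, 0, -1, -11, 1]

/-- sparse table of `Fk`: entries `(k, a, b, j)` for `k * c₄^a * c₆^b * τ^j`. -/
def FkT : List (ℤ × ℕ × ℕ × ℕ) :=
  [(1, 0, 0, 0),
   (-66, 1, 0, 2),
   (-440, 0, 1, 3),
   (-1485, 2, 0, 4),
   (-3168, 1, 1, 5),
   (-10560, 0, 2, 6),
   (5940, 3, 0, 6),
   (-4752, 2, 1, 7),
   (63360, 1, 2, 8),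
   (-66825, 4, 0, 8),
   (140800, 0, 3, 9),
   (-142560, 3, 1, 9),
   (133056, 2, 2, 10),
   (-133650, 5, 0, 10),
   (61440, 1, 3, 11),
   (-61560, 4, 1, 11),
   (102400, 0, 4, 12),
   (-193536, 3, 2, 12),
   (91125, 6, 0, 12)]

/-- sparse table of `C4`. -/
def C4T : List (ℤ × ℕ × ℕ × ℕ) :=
  [(1, 1, 0, 0),
   (20, 0, 1, 1),
   (190, 2, 0, 2),
   (1140, 1, 1, 3),
   (5700, 0, 2, 4),
   (-855, 3, 0, 4),
   (15504, 2, 1, 5),
   (-63840, 1, 2, 6),
   (102600, 4, 0, 6),
   (-182400, 0, 3, 7),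
   (259920, 3, 1, 7),
   (1126320, 2, 2, 8),
   (-1000350, 5, 0, 8),
   (7904000, 1, 3, 9),
   (-7736040, 4, 1, 9),
   (15808000, 0, 4, 10),
   (-5619744, 3, 2, 10),
   (-10003500, 6, 0, 10),
   (54853760, 2, 3, 11),
   (-54685800, 5, 1, 11),
   (37939200, 1, 4, 12),
   (7202520, 4, 2, 12),
   (-45015750, 7, 0, 12),
   (58368000, 0, 5, 13),
   (-23201280, 3, 3, 13),
   (-35089200, 6, 1, 13),
   (287462400, 2, 4, 14),
   (-495188640, 5, 2, 14),
   (207765000, 8, 0, 14),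
   (466944000, 1, 5, 15),
   (-882458496, 4, 3, 15),
   (415530000, 7, 1, 15),
   (583680000, 0, 6, 16),
   (-1220474880, 3, 4, 16),
   (714711600, 6, 2, 16),
   (-77911875, 9, 0, 16),
   (361881600, 2, 5, 17),
   (-715080960, 5, 3, 17),
   (353200500, 8, 1, 17),
   (-622592000, 1, 6, 18),
   (2026391040, 4, 4, 18),
   (-2182917600, 7, 2, 18),
   (779118750, 10, 0, 18),
   (-655360000, 0, 7, 19),
   (2005401600, 3, 5, 19),
   (-2044414080, 6, 3, 19),
   (694372500, 9, 1, 19),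
   (-180224000, 2, 6, 20),
   (544997376, 5, 4, 20),
   (-549301500, 8, 2, 20),
   (184528125, 11, 0, 20)]

/-- sparse table of `C6`. -/
def C6T : List (ℤ × ℕ × ℕ × ℕ) :=
  [(1, 0, 1, 0),
   (30, 2, 0, 1),
   (435, 1, 1, 2),
   (2900, 0, 2, 3),
   (1160, 3, 0, 3),
   (27405, 2, 1, 4),
   (46980, 1, 2, 5),
   (95526, 4, 0, 5),
   (156600, 0, 3, 6),
   (437175, 3, 1, 6),
   (3915000, 2, 2, 7),
   (-1879200, 5, 0, 7),
   (14407200, 1, 3, 8),
   (-8554275, 4, 1, 8),
   (32016000, 0, 4, 9),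
   (-42021000, 3, 2, 9),
   (24312150, 6, 0, 9),
   (-216588240, 2, 3, 10),
   (246633255, 5, 1, 10),
   (-1459929600, 1, 4, 11),
   (1352475900, 4, 2, 11),
   (162081000, 7, 0, 11),
   (-2433216000, 0, 5, 12),
   (-1612005600, 3, 3, 12),
   (4131714825, 6, 1, 12),
   (-12044419200, 2, 4, 13),
   (5235216300, 5, 2, 13),
   (6928962750, 8, 0, 13),
   (-43045111800, 4, 3, 14),
   (43190534475, 7, 1, 14),
   (-79420170240, 3, 4, 15),
   (79575287760, 6, 2, 15),
   (-297825638400, 2, 5, 16),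
   (474659611200, 5, 3, 16),
   (-176688550125, 8, 1, 16),
   (-700766208000, 1, 6, 17),
   (935084908800, 4, 4, 17),
   (77604382800, 7, 2, 17),
   (-311803323750, 10, 0, 17),
   (-778629120000, 0, 7, 18),
   (-303665356800, 3, 5, 18),
   (2776512362400, 6, 3, 18),
   (-1694131392375, 9, 1, 18),
   (-4290656256000, 2, 6, 19),
   (8100765158400, 5, 4, 19),
   (-3481840250100, 8, 2, 19),
   (-328214025000, 11, 0, 19),
   (-3442360320000, 1, 7, 20),
   (3892110842880, 4, 5, 20),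
   (2424887357760, 7, 3, 20),
   (-2874607835625, 10, 1, 20),
   (-3278438400000, 0, 8, 21),
   (5125838438400, 3, 6, 21),
   (-2709129888000, 6, 4, 21),
   (3077188825500, 9, 2, 21),
   (-2215444668750, 12, 0, 21),
   (-4573421568000, 2, 7, 22),
   (7701051801600, 5, 5, 22),
   (-1724509423800, 8, 3, 22),
   (-1403114956875, 11, 1, 22),
   (6157762560000, 1, 8, 23),
   (-30337884979200, 4, 6, 23),
   (49888700928000, 7, 4, 23),
   (-33414470973000, 10, 2, 23),
   (7705894500000, 13, 0, 23),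
   (5131468800000, 0, 9, 24),
   (-22779445248000, 3, 7, 24),
   (35246094796800, 6, 5, 24),
   (-22687218914400, 9, 3, 24),
   (5089101159375, 12, 1, 24),
   (-18216714240000, 2, 8, 25),
   (71274600677376, 5, 6, 25),
   (-105528606261120, 8, 4, 25),
   (70097953635000, 11, 2, 25),
   (-17627233668750, 14, 0, 25),
   (-41051750400000, 1, 9, 26),
   (163803539865600, 4, 7, 26),
   (-245438120632320, 7, 5, 26),
   (163672057566000, 10, 3, 26),
   (-40985726371875, 13, 1, 26),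
   (-30408704000000, 0, 10, 27),
   (111934439424000, 3, 8, 27),
   (-143803576074240, 6, 6, 27),
   (63806176396800, 9, 4, 27),
   (8104032382500, 12, 2, 27),
   (-9632368125000, 15, 0, 27),
   (-21438136320000, 2, 9, 28),
   (85731449241600, 5, 7, 28),
   (-128580522647040, 8, 5, 28),
   (85719228804000, 11, 3, 28),
   (-21432019078125, 14, 1, 28),
   (5033164800000, 1, 10, 29),
   (-31344427008000, 4, 8, 29),
   (75042714746880, 7, 6, 29),
   (-87394892457600, 10, 4, 29),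
   (49873523512500, 13, 2, 29),
   (-11210083593750, 16, 0, 29),
   (3355443200000, 0, 11, 30),
   (-17532190720000, 3, 9, 30),
   (36574189977600, 6, 7, 30),
   (-38083944628224, 9, 5, 30),
   (19796866155000, 12, 3, 30),
   (-4110363984375, 15, 1, 30)]

lemma tc4_eq_ueval (c : R) : tc4 c = ueval c tc4L := by
  simp only [tc4, tc4L, ueval]; push_cast; ring

lemma tc6_eq_ueval (c : R) : tc6 c = ueval c tc6L := by
  simp only [tc6, tc6L, ueval]; push_cast; ring

lemma tΔ_eq_ueval (c : R) : tΔ c = ueval c tΔL := by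
  simp only [tΔ, tΔL, ueval]; push_cast; ring

lemma q5_eq_beval (c τ : R) : q5 c τ = beval c τ q5L := by
  simp only [q5, q5_0, q5_1, q5_2, q5_3, q5_4, q5_5, q5L, beval, ueval]; push_cast; ring

lemma q5'_eq_beval (c τ : R) : q5' c τ = beval c τ q5L' := by
  simp only [q5', q5'_0, q5'_1, q5'_2, q5'_3, q5'_4, q5'_5, q5L', beval, ueval]; push_cast; ring

lemma Fk_eq_teval (c₄ c₆ τ : R) : Fk c₄ c₆ τ = teval c₄ c₆ τ FkT := by
  simp only [Fk, Fk_0, Fk_2, Fk_3, Fk_4, Fk_5, Fk_6, Fk_7, Fk_8, Fk_9, Fk_10, Fk_11, Fk_12, FkT, teval]; push_cast; ring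

lemma C4_eq_teval (c₄ c₆ τ : R) : C4 c₄ c₆ τ = teval c₄ c₆ τ C4T := by
  simp only [C4, C4_0, C4_1, C4_2, C4_3, C4_4, C4_5, C4_6, C4_7, C4_8, C4_9, C4_10, C4_11, C4_12, C4_13, C4_14, C4_15, C4_16, C4_17, C4_18, C4_19, C4_20, C4T, teval]; push_cast; ring

set_option maxHeartbeats 1000000 in
lemma C6_eq_teval (c₄ c₆ τ : R) : C6 c₄ c₆ τ = teval c₄ c₆ τ C6T := by
  simp only [C6, C6_0, C6_1, C6_2, C6_3, C6_4, C6_5, C6_6, C6_7, C6_8, C6_9, C6_10, C6_11, C6_12, C6_13, C6_14, C6_15, C6_16, C6_17, C6_18, C6_19, C6_20, C6_21, C6_22, C6_23, C6_24, C6_25, C6_26, C6_27, C6_28, C6_29, C6_30, C6T, teval]; push_cast; ring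

end Fermat.Agent.S52.Fam
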